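import Fermat.Agent.Galois.Cyclotomic
import Fermat.Prelude.Def_GaloisRep_Residual
import Mathlib.NumberTheory.DirichletCharacter.Basic
import Mathlib.RingTheory.LocalRing.ResidueField.Basic

/-!
# The residual Galois character of a Dirichlet character
-/

set_option autoImplicit false

noncomputable section

namespace FLTA.DeligneSerre

local notation "Qb" => AlgebraicClosure ℚ
local notation "Γℚ" => (Qb ≃ₐ[ℚ] Qb)

variable (N : ℕ) [NeZero N]

theorem card_rootsOfUnity_qb : Nat.card (rootsOfUnity N Qb) = N :=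
  IsAlgClosed.card_rootsOfUnity_eq Qb N

/-- The mod `N` cyclotomic character. -/
def cycloUnit : Γℚ →* (ZMod N)ˣ :=
  (modularCyclotomicCharacter Qb (card_rootsOfUnity_qb N)).comp
    (MulSemiringAction.toRingAut Γℚ Qb)

theorem cycloUnit_finiteLevel : GaloisFactorsThroughFiniteLevel (cycloUnit N) := by
  haveI : NeZero (N : Qb) := ⟨Nat.cast_ne_zero.mpr (NeZero.ne N)⟩
  obtain ⟨ζ, hζ⟩ : ∃ ζ : Qb, IsPrimitiveRoot ζ N :=
    ⟨_, (HasEnoughRootsOfUnity.exists_primitiveRoot Qb N).choose_spec⟩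
  refine ⟨IntermediateField.adjoin ℚ {ζ}, IntermediateField.adjoin.finiteDimensional
    (Algebra.IsIntegral.isIntegral ζ), fun σ hσ => Units.ext ?_⟩
  refine (modularCyclotomicCharacter.unique Qb (card_rootsOfUnity_qb N)
    (MulSemiringAction.toRingAut Γℚ Qb σ) fun t ht => ?_).symm
  have h1 : (t : Qb) ^ N = 1 := by
    rw [← Units.val_pow_eq_pow_val, (mem_rootsOfUnity _ _).mp ht, Units.val_one]
  obtain ⟨i, -, hi⟩ := hζ.eq_pow_of_pow_eq_one h1
  rw [Units.val_one, ZMod.val_one_eq_one_mod, ← pow_eq_pow_mod 1 h1, pow_one, ← hi]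
  show σ (ζ ^ i) = ζ ^ i
  rw [map_pow, hσ ζ (IntermediateField.mem_adjoin_simple_self ℚ ζ)]

theorem cycloUnit_frobenius {q : ℕ} (hq : q.Prime) (hqN : ¬ q ∣ N) {A : ValuationSubring Qb}
    (hA : A.LiesOverPrime q) {σ : Γℚ} (hσ : A.IsFrobeniusAt σ q) :
    ((cycloUnit N σ : (ZMod N)ˣ) : ZMod N) = q :=
  Galois.modularCyclotomicCharacter_frobenius hq hA hσ hqN _

theorem cycloUnit_inertia {q : ℕ} (hq : q.Prime) (hqN : ¬ q ∣ N) {A : ValuationSubring Qb}
    (hA : A.LiesOverPrime q) {σ : Γℚ} (hσ : σ ∈ A.inertiaSubgroupIn ℚ) : cycloUnit N σ = 1 :=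
  Galois.modularCyclotomicCharacter_inertia hq hA hσ hqN _

variable {N}

theorem isIntegral_dirichlet (e : DirichletCharacter Qb N) (u : (ZMod N)ˣ) :
    IsIntegral ℤ (e (u : ZMod N)) := by
  refine IsIntegral.of_pow (n := Nat.totient N) (Nat.totient_pos.mpr (NeZero.pos N)) ?_
  rw [← map_pow, ← Units.val_pow_eq_pow_val, ZMod.pow_totient, Units.val_one, map_one]
  exact isIntegral_one

/-- `σ ↦ e(χ_N(σ))` reduced modulo a place. -/
def dirichletRes (e : DirichletCharacter Qb N) (A : ValuationSubring Qb) :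
    Γℚ →* IsLocalRing.ResidueField A :=
  (IsLocalRing.residue A).toMonoidHom.comp
    { toFun := fun σ => (⟨e ((cycloUnit N σ : (ZMod N)ˣ) : ZMod N),
        Galois.mem_of_isIntegral (isIntegral_dirichlet e _)⟩ : A)
      map_one' := Subtype.ext (by simp)
      map_mul' := fun σ τ => Subtype.ext (by simp [map_mul]) }

theorem dirichletRes_eq (e : DirichletCharacter Qb N) (A : ValuationSubring Qb) {σ : Γℚ} {x : A}
    (h : (x : Qb) = e ((cycloUnit N σ : (ZMod N)ˣ) : ZMod N)) :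
    dirichletRes e A σ = IsLocalRing.residue A x :=
  congrArg (IsLocalRing.residue A) (Subtype.ext h.symm)

theorem dirichletRes_finiteLevel (e : DirichletCharacter Qb N) (A : ValuationSubring Qb) :
    GaloisFactorsThroughFiniteLevel (dirichletRes e A) := by
  obtain ⟨L, hL, h⟩ := cycloUnit_finiteLevel N
  refine ⟨L, hL, fun σ hσ => ?_⟩
  rw [dirichletRes_eq e A (x := 1) (by simp [h σ hσ]), map_one]

theorem dirichletRes_inertia (e : DirichletCharacter Qb N) (A : ValuationSubring Qb) {q : ℕ}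
    (hq : q.Prime) (hqN : ¬ q ∣ N) {B : ValuationSubring Qb} (hB : B.LiesOverPrime q) {σ : Γℚ}
    (hσ : σ ∈ B.inertiaSubgroupIn ℚ) : dirichletRes e A σ = 1 := by
  rw [dirichletRes_eq e A (x := 1) (by simp [cycloUnit_inertia N hq hqN hB hσ]), map_one]

end FLTA.DeligneSerre
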