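import Mathlib.RingTheory.Trace.Basic
import Mathlib.RingTheory.Artinian.Ring
import Mathlib.RingTheory.HopkinsLevitzki
import Mathlib.RingTheory.Nakayama
import Mathlib.FieldTheory.Finite.Basic
import Mathlib.FieldTheory.IsAlgClosed.Basic
import Mathlib.LinearAlgebra.TensorProduct.Basis
import Mathlib.RingTheory.IntegralClosure.IsIntegralClosure.Basic
import Mathlib.RingTheory.Flat.Basic

/-!
# Eigenvectors modulo `l`

A character modulo `l` of a commutative ring of operators on a lattice has an eigenvector on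
the reduction of the lattice, after extending scalars.
-/

set_option autoImplicit false

open scoped TensorProduct

noncomputable section

namespace FLTA.DeligneSerre

/-- A faithful module over an Artinian ring has a nonzero vector killed by a given maximal
ideal. -/
theorem exists_ne_zero_killed_of_faithful {A : Type*} [CommRing A] [IsArtinianRing A]
    {V : Type*} [AddCommGroup V] [Module A V] (hfaith : ∀ a : A, (∀ v : V, a • v = 0) → a = 0)
    (m : Ideal A) [m.IsMaximal] : ∃ v : V, v ≠ 0 ∧ ∀ a ∈ m, a • v = 0 := by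
  obtain ⟨n, hn⟩ := IsArtinian.monotone_stabilizes
    (⟨fun i => m ^ i, fun i j hij => Ideal.pow_le_pow_right hij⟩ : ℕ →o (Ideal A)ᵒᵈ)
  have hn1 : m ^ n = m ^ (n + 1) := hn (n + 1) n.le_succ
  obtain ⟨a, ha1, ha⟩ := Submodule.exists_sub_one_mem_and_smul_eq_zero_of_fg_of_le_smul m (m ^ n)
    (IsNoetherian.noetherian _) (by rw [smul_eq_mul, ← pow_succ', ← hn1])
  have ham : a ∉ m := fun h => m.ne_top_iff_one.mp (Ideal.IsMaximal.ne_top inferInstance)
    (by simpa using sub_mem h ha1)
  -- descend along powers of `m`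
  suffices ∀ j, (∃ v : V, v ≠ 0 ∧ ∀ b ∈ m ^ j, b • v = 0) → ∃ v : V, v ≠ 0 ∧ ∀ b ∈ m, b • v = 0 by
    have ha0 : a ≠ 0 := fun h => ham (h ▸ m.zero_mem)
    obtain ⟨v, hv⟩ : ∃ v : V, a • v ≠ 0 := by
      by_contra! h
      exact ha0 (hfaith a h)
    exact this n ⟨a • v, hv, fun b hb => by rw [smul_smul, mul_comm, ← smul_eq_mul a b, ha b hb, zero_smul]⟩
  intro j
  induction j with
  | zero =>
    rintro ⟨v, hv, h⟩
    exact absurd (by simpa using h 1 (by simp)) hv
  | succ j ih =>
    rintro ⟨v, hv, h⟩
    by_cases hb : ∀ b ∈ m ^ j, b • v = 0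
    · exact ih ⟨v, hv, hb⟩
    · push_neg at hb
      obtain ⟨b, hbm, hbv⟩ := hb
      refine ⟨b • v, hbv, fun c hc => ?_⟩
      rw [smul_smul]
      exact h _ (pow_succ' m j ▸ Ideal.mul_mem_mul hc hbm)

/-- Multiplication by an element of `A` as a linear map over the base. -/
def smulEndo {K A V : Type*} [CommRing K] [CommRing A] [Algebra K A] [AddCommGroup V]
    [Module K V] [Module A V] (hsmul : ∀ (r : K) (a : A) (v : V), (r • a) • v = r • a • v)
    (a : A) : V →ₗ[K] V where
  toFun v := a • v
  map_add' := smul_add a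
  map_smul' r v := by
    haveI : IsScalarTower K A V := ⟨hsmul⟩
    exact smul_comm a r v

/-- An eigenvector with prescribed eigenvalues after extending scalars. -/
theorem exists_eigenvector_baseChange {p : ℕ} [Fact p.Prime] {V : Type*} [AddCommGroup V]
    [Module (ZMod p) V] [FiniteDimensional (ZMod p) V] {k : Type*} [Field k] [Algebra (ZMod p) k]
    {A : Type*} [CommRing A] [Algebra (ZMod p) A] [Module A V]
    [Module.Finite (ZMod p) A] (hsmul : ∀ (r : ZMod p) (a : A) (v : V), (r • a) • v = r • a • v)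
    (hfaith : ∀ a : A, (∀ v : V, a • v = 0) → a = 0)
    (θ : A →ₐ[ZMod p] k) :
    ∃ y : k ⊗[ZMod p] V, y ≠ 0 ∧
      ∀ a : A, (smulEndo hsmul a).baseChange k y = θ a • y := by
  classical
  have : IsScalarTower (ZMod p) A V := ⟨hsmul⟩
  have : IsArtinianRing A := IsArtinianRing.of_finite (ZMod p) A
  have : (RingHom.ker θ).IsPrime := RingHom.ker_isPrime θ
  have : (RingHom.ker θ).IsMaximal := inferInstance
  obtain ⟨x, hx0, hx⟩ := exists_ne_zero_killed_of_faithful hfaith (RingHom.ker θ)
  -- the residue field, embedded in `k` by `ι` and in `V` by `j`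
  let F0 := A ⧸ RingHom.ker θ
  let _ : Field F0 := Ideal.Quotient.field _
  have : Module.Finite (ZMod p) F0 :=
    Module.Finite.of_surjective (Ideal.Quotient.mkₐ (ZMod p) (RingHom.ker θ)).toLinearMap
      Ideal.Quotient.mk_surjective
  have : Finite F0 := Module.finite_of_finite (ZMod p)
  let ι : F0 →ₐ[ZMod p] k := Ideal.Quotient.liftₐ _ θ fun a ha => ha
  let j : F0 →ₗ[ZMod p] V :=
    Submodule.liftQ ((RingHom.ker θ).restrictScalars (ZMod p))
      ((LinearMap.toSpanSingleton A V x).restrictScalars (ZMod p)) (fun a ha => hx a ha)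
  have hj : Function.Injective j := by
    rw [injective_iff_map_eq_zero]
    intro f hf
    obtain ⟨a, rfl⟩ := Ideal.Quotient.mk_surjective f
    by_contra hne
    have hunit : IsUnit (Ideal.Quotient.mk (RingHom.ker θ) a) := Ne.isUnit hne
    obtain ⟨c, hc⟩ := Ideal.Quotient.mk_surjective ((hunit.unit⁻¹ : F0ˣ) : F0)
    have h1 : c * a - 1 ∈ RingHom.ker θ := by
      rw [← Ideal.Quotient.eq, map_mul, hc, map_one, IsUnit.val_inv_mul]
    have h2 := hx _ h1
    have hf' : a • x = 0 := hf
    rw [sub_smul, one_smul, mul_smul, hf', smul_zero, zero_sub, neg_eq_zero] at h2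
    exact hx0 h2
  -- trace-dual bases of the residue field
  let b := Module.finBasis (ZMod p) F0
  have hnd : (Algebra.traceForm (ZMod p) F0).Nondegenerate := traceForm_nondegenerate _ _
  let b' := (Algebra.traceForm (ZMod p) F0).dualBasis hnd b
  refine ⟨∑ i, ι (b' i) ⊗ₜ[ZMod p] j (b i), fun h0 => ?_, fun a => ?_⟩
  · have hli : LinearIndependent (ZMod p) fun i => j (b i) :=
      b.linearIndependent.map' j (LinearMap.ker_eq_bot.mpr hj)
    let bV := Module.Basis.sumExtend hli
    let bk := Module.Basis.baseChange k bV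
    have hsum : (∑ i, ι (b' i) ⊗ₜ[ZMod p] j (b i)) = ∑ i, ι (b' i) • bk (Sum.inl i) := by
      refine Finset.sum_congr rfl fun i _ => ?_
      rw [Module.Basis.baseChange_apply, TensorProduct.smul_tmul', smul_eq_mul, mul_one]
      simp [bV, Module.Basis.sumExtend]
      rfl
    rw [hsum] at h0
    obtain ⟨i⟩ : Nonempty (Fin (Module.finrank (ZMod p) F0)) := ⟨⟨0, Module.finrank_pos⟩⟩
    have hbk : LinearIndependent k fun i => bk (Sum.inl i) :=
      bk.linearIndependent.comp _ Sum.inl_injective
    have := Fintype.linearIndependent_iff.mp hbk _ h0 i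
    exact b'.ne_zero i (ι.toRingHom.injective (by rw [map_zero]; exact this))
  · set f : F0 := Ideal.Quotient.mk _ a
    have hja : ∀ g : F0, a • j g = j (f * g) := by
      intro g
      obtain ⟨c, rfl⟩ := Ideal.Quotient.mk_surjective g
      show a • c • x = (a * c) • x
      rw [mul_smul]
    have hexp : ∀ i, f * b i = ∑ m, Algebra.trace (ZMod p) F0 (f * b' m * b i) • b m := by
      intro i
      conv_lhs => rw [← b.sum_repr (f * b i)]
      refine Finset.sum_congr rfl fun m _ => ?_
      congr 1
      have h1 := LinearMap.BilinForm.apply_dualBasis_left hnd b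
      have : Algebra.traceForm (ZMod p) F0 (b' m) (f * b i) = b.repr (f * b i) m := by
        conv_lhs => rw [← b.sum_repr (f * b i)]
        rw [map_sum]
        simp only [map_smul, b', h1, smul_eq_mul, mul_ite, mul_one, mul_zero, Finset.sum_ite_eq',
          Finset.mem_univ, if_true]
      rw [← this, Algebra.traceForm_apply]
      ring_nf
    have hdual : ∀ m, (∑ i, Algebra.trace (ZMod p) F0 (f * b' m * b i) • b' i) = f * b' m := by
      intro m
      conv_rhs => rw [← b'.sum_repr (f * b' m)]
      refine Finset.sum_congr rfl fun i _ => ?_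
      rw [LinearMap.BilinForm.dualBasis_repr_apply, Algebra.traceForm_apply]
    simp only [map_sum, LinearMap.baseChange_tmul, smulEndo, LinearMap.coe_mk, AddHom.coe_mk, hja, hexp, map_smul,
      TensorProduct.tmul_sum, TensorProduct.tmul_smul, Finset.smul_sum]
    rw [Finset.sum_comm]
    refine Finset.sum_congr rfl fun m _ => ?_
    simp only [TensorProduct.smul_tmul', ← map_smul, ← TensorProduct.sum_tmul, ← map_sum, hdual,
      smul_eq_mul, map_mul]
    rfl

/-- The character of a ring of lattice operators kills those divisible by `l`. -/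
theorem ringHom_eq_zero_of_divisible {M : Type*} [AddCommGroup M] [Module.Finite ℤ M]
    [Module.Free ℤ M] {l : ℕ} {k : Type*} [Field k] [CharP k l]
    (R : Subring (Module.End ℤ M)) (θ : R →+* k) (r : R)
    (r' : Module.End ℤ M) (hr : (r : Module.End ℤ M) = (l : ℤ) • r') : θ r = 0 := by
  obtain ⟨P, hP, hP0⟩ := Algebra.IsIntegral.isIntegral (R := ℤ) r'
  have h1 : (Polynomial.scaleRoots P (l : ℤ)).eval₂ (algebraMap ℤ (Module.End ℤ M)) r = 0 := by
    rw [hr, ← Polynomial.aeval_def,
      show (l : ℤ) • r' = algebraMap ℤ (Module.End ℤ M) (l : ℤ) * r' from Algebra.smul_def _ _]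
    exact Polynomial.scaleRoots_aeval_eq_zero hP0
  have h2 : (Polynomial.scaleRoots P (l : ℤ)).eval₂ (algebraMap ℤ R) r = 0 := by
    apply Subtype.val_injective
    have := Polynomial.hom_eval₂ (Polynomial.scaleRoots P (l : ℤ)) (algebraMap ℤ R) R.subtype r
    rw [RingHom.ext_int (R.subtype.comp (algebraMap ℤ R)) (algebraMap ℤ (Module.End ℤ M))] at this
    exact this.trans h1
  have h3 := congrArg θ h2
  rw [Polynomial.hom_eval₂, map_zero,
    RingHom.ext_int (θ.comp (algebraMap ℤ R)) (algebraMap ℤ k), Polynomial.eval₂_eq_sum_range,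
    Finset.sum_range_succ] at h3
  rw [Finset.sum_eq_zero, zero_add] at h3
  · have hnd : (Polynomial.scaleRoots P (l : ℤ)).natDegree = P.natDegree :=
      Polynomial.natDegree_scaleRoots P _
    rw [hnd, Polynomial.coeff_scaleRoots_natDegree, hP.leadingCoeff, map_one, one_mul] at h3
    exact (pow_eq_zero_iff'.mp h3).1
  · intro i hi
    rw [Finset.mem_range, Polynomial.natDegree_scaleRoots] at hi
    rw [Polynomial.coeff_scaleRoots, map_mul, map_pow]
    simp [CharP.cast_eq_zero, zero_pow (show P.natDegree - i ≠ 0 by omega)]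

/-- A mod-`l` character of lattice operators has an eigenvector in the scalar extension of the
reduction. -/
theorem exists_eigenvector_of_lattice {l : ℕ} [Fact l.Prime] {k : Type*} [Field k] [CharP k l]
    [Algebra (ZMod l) k] {M : Type*} [AddCommGroup M] [Module.Finite ℤ M] [Module.Free ℤ M]
    {V : Type*} [AddCommGroup V] [Module (ZMod l) V] [FiniteDimensional (ZMod l) V]
    (red : M →+ V) (hker : ∀ m, red m = 0 → ∃ m', m = (l : ℤ) • m')
    {ι : Type*} (O : ι → Module.End ℤ M) (O0 : ι → Module.End (ZMod l) V)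
    (hcomm : ∀ i j, Commute (O0 i) (O0 j))
    (hred : ∀ i m, red (O i m) = O0 i (red m))
    (θ : Subring.closure (Set.range O) →+* k) :
    ∃ y : k ⊗[ZMod l] V, y ≠ 0 ∧
      ∀ i, (O0 i).baseChange k y = θ ⟨O i, Subring.subset_closure ⟨i, rfl⟩⟩ • y := by
  classical
  let R := Subring.closure (Set.range O)
  -- pairs of compatible operators
  let Z := Subring.closure (Set.range fun i => (O i, O0 i))
  have hZ : ∀ z ∈ Z, ∀ m, red (z.1 m) = z.2 (red m) := by
    intro z hz
    induction hz using Subring.closure_induction with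
    | mem x hx => obtain ⟨i, rfl⟩ := hx; exact hred i
    | zero => intro m; simp
    | one => intro m; simp
    | add x y _ _ hx hy => intro m; simp [hx, hy]
    | neg x _ hx => intro m; simp [hx]
    | mul x y _ _ hx hy => intro m; simp [hx, hy]
  have hfst : ∀ z ∈ Z, z.1 ∈ R := by
    intro z hz
    induction hz using Subring.closure_induction with
    | mem x hx => obtain ⟨i, rfl⟩ := hx; exact Subring.subset_closure ⟨i, rfl⟩
    | zero => exact zero_mem _
    | one => exact one_mem _
    | add x y _ _ hx hy => exact add_mem hx hy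
    | neg x _ hx => exact neg_mem hx
    | mul x y _ _ hx hy => exact mul_mem hx hy
  let θZ : Z →+* k := θ.comp (((RingHom.fst _ _).comp Z.subtype).codRestrict R fun z => hfst z z.2)
  have hZ0 : ∀ z : Z, z.1.2 = 0 → θZ z = 0 := by
    intro z hz
    have h1 : ∀ m, ∃ m', z.1.1 m = (l : ℤ) • m' := fun m =>
      hker _ (by rw [hZ z z.2 m, hz, LinearMap.zero_apply])
    let b := Module.Free.chooseBasis ℤ M
    choose m' hm' using fun i => h1 (b i)
    refine ringHom_eq_zero_of_divisible R θ _ (b.constr ℤ m') (b.ext fun i => ?_)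
    show z.1.1 (b i) = ((l : ℤ) • b.constr ℤ m') (b i)
    rw [LinearMap.smul_apply, b.constr_basis, hm']
  let A := Algebra.adjoin (ZMod l) (Set.range O0)
  have hA : IsMulCommutative A := Algebra.isMulCommutative_adjoin (ZMod l) (by
    rintro _ ⟨i, rfl⟩ _ ⟨j, rfl⟩
    exact hcomm i j)
  let iA : CommRing A := { (inferInstance : Ring A) with mul_comm := hA.is_comm.comm }
  have hsnd : ∀ a ∈ A, ∃ z : Z, z.1.2 = a := by
    intro a ha
    induction ha using Algebra.adjoin_induction with
    | mem x hx =>
      obtain ⟨i, rfl⟩ := hx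
      exact ⟨⟨_, Subring.subset_closure ⟨i, rfl⟩⟩, rfl⟩
    | algebraMap r =>
      obtain ⟨n, rfl⟩ := ZMod.intCast_surjective r
      exact ⟨(n : Z), by simp [map_intCast]⟩
    | add x y _ _ hx hy =>
      obtain ⟨u, rfl⟩ := hx
      obtain ⟨w, rfl⟩ := hy
      exact ⟨u + w, rfl⟩
    | mul x y _ _ hx hy =>
      obtain ⟨u, rfl⟩ := hx
      obtain ⟨w, rfl⟩ := hy
      exact ⟨u * w, rfl⟩
  choose z hz using fun a : A => hsnd a a.2
  have hwd : ∀ (a : A) (w : Z), w.1.2 = a.1 → θZ (z a) = θZ w := fun a w hw => by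
    rw [← sub_eq_zero, ← map_sub]
    exact hZ0 _ (by simp [hz a, hw])
  let θA : A →+* k :=
    { toFun := fun a => θZ (z a)
      map_one' := (hwd 1 1 rfl).trans (map_one _)
      map_mul' := fun a b => (hwd (a * b) (z a * z b) (by simp [hz])).trans (map_mul _ _ _)
      map_zero' := (hwd 0 0 rfl).trans (map_zero _)
      map_add' := fun a b => (hwd (a + b) (z a + z b) (by simp [hz])).trans (map_add _ _ _) }
  let θA' : A →ₐ[ZMod l] k :=
    { θA with
      commutes' := fun r =>
        DFunLike.congr_fun (Subsingleton.elim _ _ :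
          θA.comp (algebraMap (ZMod l) A) = algebraMap (ZMod l) k) r }
  let _ : Module A V := Module.compHom V A.val.toRingHom
  have hst : IsScalarTower (ZMod l) A V :=
    IsScalarTower.of_algebraMap_smul fun r v => rfl
  have : Module.Finite (ZMod l) A :=
    Module.Finite.of_injective A.val.toLinearMap Subtype.val_injective
  obtain ⟨y, hy0, hy⟩ := exists_eigenvector_baseChange (A := A)
    (fun r a v => rfl) (fun a h => Subtype.ext (LinearMap.ext h)) θA'
  refine ⟨y, hy0, fun i => ?_⟩
  refine (hy ⟨O0 i, Algebra.subset_adjoin ⟨i, rfl⟩⟩).trans ?_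
  congr 1
  exact hwd _ ⟨_, Subring.subset_closure ⟨i, rfl⟩⟩ rfl

end FLTA.DeligneSerre
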