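import Fermat.Agent.DeligneSerre.Hecke.Defs
import Fermat.Agent.Periods.Lattice
import Mathlib.LinearAlgebra.FreeModule.Finite.Basic
import Mathlib.Data.ZMod.Basic

/-!
# The parabolic lattice of `Γ₁(M)` and its reduction modulo `l`
-/

set_option autoImplicit false

noncomputable section

open CongruenceSubgroup ModularCurve.Period
open scoped MatrixGroups

namespace FLTA.DeligneSerre

variable (M : ℕ) [NeZero M] (l : ℕ)

theorem finite_free_parHom1_int :
    Module.Finite ℤ (parHom1 M ℤ ℤ) ∧ Module.Free ℤ (parHom1 M ℤ ℤ) := by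
  let e : (Periods.parQuot (Gamma1 M) →ₗ[ℤ] ℤ) ≃ₗ[ℤ] parHom1 M ℤ ℤ :=
    (addMonoidHomLequivInt ℤ).symm.trans (Periods.parEquiv (Gamma1 M) ℤ ℤ)
  exact ⟨Module.Finite.equiv e, Module.Free.of_equiv e⟩

/-- Parabolic homomorphisms into a finite group form a finite set. -/
theorem finite_parHom1 {A : Type} [AddCommGroup A] [Finite A] (𝕜 : Type) [Semiring 𝕜]
    [Module 𝕜 A] : Finite (parHom1 M A 𝕜) := by
  obtain ⟨S, hS, hfin⟩ := Group.fg_iff.mp (Periods.group_fg_of_finiteIndex (Gamma1 M))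
  have : Finite S := hfin.to_subtype
  refine Finite.of_injective (fun φ (s : S) => φ.1 (Additive.ofMul s.1)) fun φ ψ h => ?_
  refine Subtype.ext (AddMonoidHom.ext fun γ => ?_)
  have h' : Set.EqOn (AddMonoidHom.toMultiplicativeRight φ.1)
      (AddMonoidHom.toMultiplicativeRight ψ.1) S := fun s hs =>
    congrArg Multiplicative.ofAdd (congrFun h ⟨s, hs⟩)
  have := MonoidHom.eqOn_closure h' (show Additive.toMul γ ∈ Subgroup.closure S by simp [hS])
  exact congrArg Multiplicative.toAdd this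

/-- Reduction of parabolic homomorphisms modulo `l`. -/
def parRed : parHom1 M ℤ ℤ →+ parHom1 M (ZMod l) (ZMod l) where
  toFun φ := ⟨(Int.castAddHom (ZMod l)).comp φ.1, fun γ hγ => by
    rw [AddMonoidHom.comp_apply, mem_parabolicHoms_iff.mp φ.2 γ hγ, map_zero]⟩
  map_zero' := Subtype.ext (by ext; simp)
  map_add' φ ψ := Subtype.ext (by ext; simp)

theorem coe_parRed (φ : parHom1 M ℤ ℤ) :
    ((parRed M l φ : parHom1 M (ZMod l) (ZMod l)) : Additive (Gamma1 M) →+ ZMod l) =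
      (Int.castAddHom (ZMod l)).comp φ.1 := rfl

theorem exists_eq_smul_of_parRed_eq_zero [NeZero l] (φ : parHom1 M ℤ ℤ) (h : parRed M l φ = 0) :
    ∃ φ', φ = (l : ℤ) • φ' := by
  have hdvd : ∀ γ, (l : ℤ) ∣ φ.1 γ := fun γ =>
    (ZMod.intCast_zmod_eq_zero_iff_dvd _ l).mp
      (DFunLike.congr_fun (congrArg Subtype.val h) γ)
  have hl : (l : ℤ) ≠ 0 := by exact_mod_cast NeZero.ne l
  choose q hq using hdvd
  let ψ : Additive (Gamma1 M) →+ ℤ :=
    { toFun := q
      map_zero' := mul_left_cancel₀ hl (by rw [← hq, map_zero, mul_zero])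
      map_add' := fun a b => mul_left_cancel₀ hl (by rw [mul_add, ← hq, ← hq, ← hq, map_add]) }
  refine ⟨⟨ψ, fun γ hγ => mul_left_cancel₀ hl ?_⟩, Subtype.ext (AddMonoidHom.ext fun γ => ?_)⟩
  · show (l : ℤ) * q _ = (l : ℤ) * 0
    rw [← hq, mem_parabolicHoms_iff.mp φ.2 γ hγ, mul_zero]
  · show φ.1 γ = (l : ℤ) • q γ
    rw [smul_eq_mul, ← hq]

theorem parRed_heckePar1 (p : ℕ) (φ : parHom1 M ℤ ℤ) :
    parRed M l (heckePar1 ℤ p φ) = heckePar1 (ZMod l) p (parRed M l φ) := by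
  apply Subtype.ext
  rw [coe_parRed, coe_heckePar1, coe_heckePar1, coe_parRed, heckeHom1_eq_int (ZMod l),
    heckeHom1_comp]

theorem parRed_diamondPar1 (u : (ZMod M)ˣ) (φ : parHom1 M ℤ ℤ) :
    parRed M l (diamondPar1 ℤ u φ) = diamondPar1 (ZMod l) u (parRed M l φ) := rfl

end FLTA.DeligneSerre
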