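import Fermat.Agent.DeligneSerre.Quad.Frobenius
import Mathlib.RingTheory.TensorProduct.Maps
import Mathlib.Algebra.Algebra.ZMod

/-!
# Assembling a plane from an eigenvector and Frobenius relations
-/

set_option autoImplicit false

noncomputable section

open scoped TensorProduct

namespace FLTA.DeligneSerre

local notation "Qb" => AlgebraicClosure ℚ
local notation "Γℚ" => (Qb ≃ₐ[ℚ] Qb)

/-- Form with operators already defined over `k`. -/
theorem exists_plane_of_joint_eigen {k : Type} [Field k] [IsAlgClosed k]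
    {U : Type} [AddCommGroup U] [Module k U] [FiniteDimensional k U] {ι : Type}
    (O : ι → Module.End k U) (c : ι → k) (y : U) (hy0 : y ≠ 0) (hy : ∀ i, O i y = c i • y)
    (π : Γℚ →* Module.End k U) (hπ : GaloisFactorsThroughFiniteLevel π)
    (hπO : ∀ σ i, Commute (π σ) (O i)) (d : Γℚ →* k) (hd : GaloisFactorsThroughFiniteLevel d)
    (S : Finset ℕ) (good : ℕ → Prop) (hgood : ∀ p, p.Prime → p ∉ S → good p)
    (hrel : ∀ p : ℕ, p.Prime → good p → ∀ B : ValuationSubring Qb, B.LiesOverPrime p →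
      ∀ σ : Γℚ, B.IsFrobeniusAt σ p → ∃ i j, ∃ a : k,
        π σ * π σ - O i * π σ + a • O j = 0 ∧ c j * a = d σ) :
    ∃ ρ : Γℚ →* GL (Fin 2) k, GaloisFactorsThroughFiniteLevel ρ ∧ IsSemisimpleTwo ρ ∧
      (∀ σ, (ρ σ).val.det = d σ) ∧
      (∀ σ i j (a : k), π σ * π σ - O i * π σ + a • O j = 0 → c j * a = d σ →
        (ρ σ).val.trace = c i) ∧
      ∀ σ, π σ = 1 → d σ = 1 → ρ σ = 1 := by
  classical
  let W : Submodule k U := ⨅ i, LinearMap.ker (O i - c i • 1)
  have hW : ∀ {z}, z ∈ W ↔ ∀ i, O i z = c i • z := by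
    intro z
    simp [W, sub_eq_zero]
  have hyW : y ∈ W := hW.mpr hy
  have : Nontrivial W := Submodule.nontrivial_iff_ne_bot.mpr fun h => hy0 (by simpa [h] using hyW)
  have hstab : ∀ σ, ∀ z ∈ W, π σ z ∈ W := by
    intro σ z hz
    rw [hW]
    intro i
    have := LinearMap.congr_fun (hπO σ i).symm.eq z
    rw [Module.End.mul_apply, Module.End.mul_apply, hW.mp hz i, map_smul] at this
    exact this
  let πW : Γℚ →* Module.End k W :=
    { toFun := fun σ => (π σ).restrict (hstab σ)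
      map_one' := by ext z; simp
      map_mul' := fun σ τ => by ext z; simp }
  have hπW : GaloisFactorsThroughFiniteLevel πW := by
    obtain ⟨L, hL, h⟩ := hπ
    exact ⟨L, hL, fun σ hσ => by ext z; simp [πW, h σ hσ]⟩
  have key : ∀ σ i j (a : k), π σ * π σ - O i * π σ + a • O j = 0 →
      c j * a = d σ → πW σ * πW σ - c i • πW σ + d σ • 1 = 0 := by
    intro σ i j a h hcd
    refine LinearMap.ext fun z => Subtype.ext ?_
    have h0 := LinearMap.congr_fun h z.1
    rw [LinearMap.add_apply, LinearMap.sub_apply, Module.End.mul_apply, Module.End.mul_apply,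
      LinearMap.smul_apply, hW.mp (hstab σ z.1 z.2) i, hW.mp z.2 j, smul_smul, mul_comm a,
      hcd] at h0
    exact h0
  obtain ⟨ρ, hρ, hss, hdet, htr, hone⟩ := exists_gl_rep_of_frobenius πW hπW d hd S
    (fun p hp hpS B hB σ hσ => by
      obtain ⟨i, j, a, h, hcd⟩ := hrel p hp (hgood p hp hpS) B hB σ hσ
      exact ⟨_, key σ i j a h hcd⟩)
  refine ⟨ρ, hρ, hss, hdet, fun σ i j a h hcd => htr σ _ (key σ i j a h hcd),
    fun σ h1 h2 => hone σ ?_ h2⟩
  ext z
  simp [πW, h1]

/-- An eigenvector of operators commuting with a Galois action, and Frobenius relations through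
these operators, give a semisimple plane. -/
theorem exists_plane_of_eigenvector {l : ℕ} [Fact l.Prime] {k : Type} [Field k] [IsAlgClosed k]
    [Algebra (ZMod l) k] {V : Type} [AddCommGroup V] [Module (ZMod l) V]
    [FiniteDimensional (ZMod l) V] {ι : Type} (O : ι → Module.End (ZMod l) V) (c : ι → k)
    (y : k ⊗[ZMod l] V) (hy0 : y ≠ 0) (hy : ∀ i, (O i).baseChange k y = c i • y)
    (π : Γℚ →* Module.End (ZMod l) V) (hπ : GaloisFactorsThroughFiniteLevel π)
    (hπO : ∀ σ i, Commute (π σ) (O i)) (d : Γℚ →* k) (hd : GaloisFactorsThroughFiniteLevel d)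
    (S : Finset ℕ) (good : ℕ → Prop) (hgood : ∀ p, p.Prime → p ∉ S → good p)
    (hrel : ∀ p : ℕ, p.Prime → good p → ∀ B : ValuationSubring Qb, B.LiesOverPrime p →
      ∀ σ : Γℚ, B.IsFrobeniusAt σ p → ∃ i j, ∃ n : ℕ,
        π σ * π σ - O i * π σ + (n : ZMod l) • O j = 0 ∧ c j * (n : k) = d σ) :
    ∃ ρ : Γℚ →* GL (Fin 2) k, GaloisFactorsThroughFiniteLevel ρ ∧ IsSemisimpleTwo ρ ∧
      (∀ σ, (ρ σ).val.det = d σ) ∧
      (∀ σ i j (n : ℕ), π σ * π σ - O i * π σ + (n : ZMod l) • O j = 0 → c j * (n : k) = d σ →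
        (ρ σ).val.trace = c i) ∧
      ∀ σ, π σ = 1 → d σ = 1 → ρ σ = 1 := by
  have key : ∀ σ i j (n : ℕ), π σ * π σ - O i * π σ + (n : ZMod l) • O j = 0 →
      (π σ).baseChange k * (π σ).baseChange k - (O i).baseChange k * (π σ).baseChange k +
        (n : k) • (O j).baseChange k = 0 := by
    intro σ i j n h
    have h' := congrArg (Module.End.baseChangeHom (ZMod l) k V) h
    rw [map_add, map_sub, map_mul, map_mul, map_zero, Nat.cast_smul_eq_nsmul, map_nsmul,
      ← Nat.cast_smul_eq_nsmul k] at h'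
    exact h'
  obtain ⟨ρ, hρ, hss, hdet, htr, hone⟩ := exists_plane_of_joint_eigen
    (fun i => (O i).baseChange k) c y hy0 hy
    ((Module.End.baseChangeHom (ZMod l) k V).toRingHom.toMonoidHom.comp π)
    (by
      obtain ⟨L, hL, h⟩ := hπ
      exact ⟨L, hL, fun σ hσ => (congrArg (Module.End.baseChangeHom (ZMod l) k V) (h σ hσ)).trans
        (map_one _)⟩)
    (fun σ i => (hπO σ i).map (Module.End.baseChangeHom (ZMod l) k V)) d hd S good hgood
    (fun p hp hg B hB σ hσ => by
      obtain ⟨i, j, n, h, hcd⟩ := hrel p hp hg B hB σ hσ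
      exact ⟨i, j, n, key σ i j n h, hcd⟩)
  exact ⟨ρ, hρ, hss, hdet, fun σ i j n h hcd => htr σ i j n (key σ i j n h) hcd,
    fun σ h1 h2 => hone σ
      ((congrArg (Module.End.baseChangeHom (ZMod l) k V) h1).trans (map_one _)) h2⟩

end FLTA.DeligneSerre
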