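import Fermat.Agent.DeligneSerre.Quad.PlaneRep
import Fermat.Agent.DeligneSerre.Eigen.Defs
import Fermat.Agent.Density.Frobenius

/-!
# Galois version: quadratic relations at Frobenius elements give a semisimple plane
-/

set_option autoImplicit false

open Matrix

noncomputable section

namespace FLTA.DeligneSerre

local notation "Qb" => AlgebraicClosure ℚ
local notation "Γℚ" => (Qb ≃ₐ[ℚ] Qb)

/-- A quadratic relation passes to powers. -/
theorem quadRel_pow {F : Type*} [Field F] {R : Type*} [Ring R] [Algebra F R] (m : R) (t d : F)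
    (h : m * m - t • m + d • 1 = 0) (k : ℕ) :
    ∃ s : F, m ^ k * m ^ k - s • m ^ k + d ^ k • 1 = 0 := by
  set m' : R := t • 1 - m with hm'
  have hmm : m * m' = d • 1 := by
    rw [hm', mul_sub, mul_smul_comm, mul_one]
    linear_combination (norm := abel) -h
  have hmm' : m' * m = d • 1 := by
    rw [hm', sub_mul, smul_mul_assoc, one_mul]
    linear_combination (norm := abel) -h
  have hc : Commute m m' := hmm.trans hmm'.symm
  have hsum : ∀ j : ℕ, ∃ s u : F, m ^ j + m' ^ j = s • 1 ∧ m ^ (j + 1) + m' ^ (j + 1) = u • 1 := by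
    intro j
    induction j with
    | zero => exact ⟨2, t, by rw [pow_zero, pow_zero, two_smul], by rw [hm']; simp⟩
    | succ j ih =>
      obtain ⟨s, u, hs, hu⟩ := ih
      refine ⟨u, t * u - d * s, hu, ?_⟩
      have h2 : m ^ (j + 1 + 1) + m' ^ (j + 1 + 1) =
          (m + m') * (m ^ (j + 1) + m' ^ (j + 1)) - (m * m') * (m ^ j + m' ^ j) := by
        rw [add_mul, mul_add, mul_add, mul_add, ← pow_succ' m (j + 1), ← pow_succ' m' (j + 1),
          pow_succ' m' j, pow_succ' m j, ← mul_assoc m m' (m' ^ j), ← mul_assoc m' m (m ^ j),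
          hmm', hmm]
        abel
      have h3 : m + m' = t • 1 := by rw [hm']; abel
      rw [h2, hu, hs, h3, hmm, smul_mul_smul_comm, smul_mul_smul_comm, one_mul, sub_smul]
  obtain ⟨s, -, hs, -⟩ := hsum k
  refine ⟨s, ?_⟩
  have hd : m ^ k * m' ^ k = d ^ k • 1 := by rw [← hc.mul_pow, hmm, smul_pow, one_pow]
  have hsm : s • m ^ k = m ^ k * (m ^ k + m' ^ k) := by rw [hs, mul_smul_comm, mul_one]
  rw [hsm, mul_add, hd]
  abel

/-- `IsSemisimpleTwo` from `IsIrredOrDiagonal`. -/
theorem isSemisimpleTwo_of_isIrredOrDiagonal {k : Type} [Field k] (ρ : Γℚ →* GL (Fin 2) k)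
    (h : IsIrredOrDiagonal ((Units.coeHom _).comp ρ)) : IsSemisimpleTwo ρ := by
  rcases h with h | h
  · refine Or.inl ?_
    have hne : (⊥ : Subrepresentation (Deformation.matrixRepresentation ρ)) ≠ ⊤ := fun he => by
      have h1 : (fun _ => 1 : Fin 2 → k) ∈
          (⊤ : Subrepresentation (Deformation.matrixRepresentation ρ)).toSubmodule := trivial
      rw [← he] at h1
      exact one_ne_zero (congrFun ((Submodule.mem_bot k).mp h1) 0)
    refine { exists_pair_ne := ⟨⊥, ⊤, hne⟩, eq_bot_or_eq_top := fun W => ?_ }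
    refine or_iff_not_imp_left.mpr fun hW => ?_
    have hW' : W.toSubmodule ≠ ⊥ := fun h0 => hW (Subrepresentation.toSubmodule_injective h0)
    obtain ⟨v, hv, hv0⟩ := W.toSubmodule.ne_bot_iff.mp hW'
    obtain ⟨g, hg⟩ := h v hv0
    apply Subrepresentation.toSubmodule_injective
    show W.toSubmodule = ⊤
    have hgv : (ρ g).val *ᵥ v ∈ W.toSubmodule := by
      have := W.apply_mem_toSubmodule g hv
      rwa [Deformation.matrixRepresentation_apply] at this
    by_contra hne'
    have hlt := Submodule.finrank_lt hne'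
    rw [Module.finrank_fin_fun] at hlt
    have h1 : Module.finrank k (k ∙ v) = 1 := finrank_span_singleton hv0
    have heq : (k ∙ v) = W.toSubmodule :=
      Submodule.eq_of_le_of_finrank_le (by simpa using hv) (by omega)
    obtain ⟨c, hc⟩ := Submodule.mem_span_singleton.mp (heq ▸ hgv)
    exact hg c hc.symm
  · refine Or.inr ⟨1, fun σ => ?_⟩
    obtain ⟨u, v, huv⟩ := h σ
    rw [show (1 : GL (Fin 2) k) * ρ σ * 1⁻¹ = ρ σ by group]
    rw [show (ρ σ).val = _ from huv]
    exact Matrix.isDiag_diagonal _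

/-- Quadratic relations at Frobenius elements outside a finite set give a semisimple plane. -/
theorem exists_gl_rep_of_frobenius {k : Type} [Field k] [IsAlgClosed k] {W : Type}
    [AddCommGroup W] [Module k W] [FiniteDimensional k W] [Nontrivial W]
    (π : Γℚ →* Module.End k W) (hπ : GaloisFactorsThroughFiniteLevel π)
    (d : Γℚ →* k) (hd : GaloisFactorsThroughFiniteLevel d) (S : Finset ℕ)
    (hfrob : ∀ ℓ : ℕ, ℓ.Prime → ℓ ∉ S → ∀ A : ValuationSubring Qb, A.LiesOverPrime ℓ →
      ∀ τ : Γℚ, A.IsFrobeniusAt τ ℓ → ∃ t : k, π τ * π τ - t • π τ + d τ • 1 = 0) :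
    ∃ ρ : Γℚ →* GL (Fin 2) k, GaloisFactorsThroughFiniteLevel ρ ∧ IsSemisimpleTwo ρ ∧
      (∀ σ, (ρ σ).val.det = d σ) ∧
      (∀ σ t, π σ * π σ - t • π σ + d σ • 1 = 0 → (ρ σ).val.trace = t) ∧
      ∀ σ, π σ = 1 → d σ = 1 → ρ σ = 1 := by
  have hq : ∀ σ, ∃ t : k, π σ * π σ - t • π σ + d σ • 1 = 0 := by
    intro σ
    refine Density.forall_of_frobenius (π.prod d) (Density.galoisFactorsThroughFiniteLevel_prod hπ hd)
      S (fun m => ∃ t : k, m.1 * m.1 - t • m.1 + m.2 • 1 = 0) ?_ hfrob σ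
    rintro m j ⟨t, ht⟩
    exact quadRel_pow m.1 t m.2 ht j
  obtain ⟨ρ, hss, hdet, htr, hone⟩ := exists_plane_rep π d hq
  refine ⟨ρ.toHomUnits, ?_, ?_, fun σ => hdet σ, fun σ t h => htr σ t h, fun σ h1 h2 => ?_⟩
  · obtain ⟨L, hL, hπL⟩ := Density.galoisFactorsThroughFiniteLevel_prod hπ hd
    exact ⟨L, hL, fun σ hσ => Units.ext
      (hone σ (congrArg Prod.fst (hπL σ hσ)) (congrArg Prod.snd (hπL σ hσ)))⟩
  · refine isSemisimpleTwo_of_isIrredOrDiagonal _ ?_
    exact hss
  · exact Units.ext (hone σ h1 h2)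

end FLTA.DeligneSerre
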