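import Fermat.Agent.RepTheory.AbsIrr
import Mathlib.FieldTheory.IsAlgClosed.Basic
import Mathlib.LinearAlgebra.Matrix.Charpoly.Coeff
import Mathlib.Data.Matrix.Basis

/-!
# A plane from quadratic relations

If every element of a group acting on a nonzero finite-dimensional space over an algebraically
closed field satisfies `g² - t g + d(g) = 0`, with `d` multiplicative, then there is a
two-dimensional semisimple representation with trace `t` and determinant `d`.
-/

set_option autoImplicit false

open Matrix

namespace FLTA.DeligneSerre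

variable {G : Type*} [Group G] {F : Type*} [Field F]

/-- Irreducible, or diagonal in the given basis. -/
def IsIrredOrDiagonal (ρ : G →* Matrix (Fin 2) (Fin 2) F) : Prop :=
  (∀ v : Fin 2 → F, v ≠ 0 → ∃ g, ∀ c : F, ρ g *ᵥ v ≠ c • v) ∨
    ∀ g, ∃ u v : F, ρ g = Matrix.diagonal ![u, v]

/-- An element satisfying two quadratic relations with the same constant term has a unique
linear coefficient. -/
theorem quadRel_unique {W : Type*} [AddCommGroup W] [Module F W] [Nontrivial W]
    (π : G →* Module.End F W) (g : G) {t t' d : F}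
    (h : π g * π g - t • π g + d • 1 = 0) (h' : π g * π g - t' • π g + d • 1 = 0) : t = t' := by
  have h0 : (t' - t) • π g = 0 := by
    rw [sub_smul]
    linear_combination (norm := abel) h - h'
  rcases smul_eq_zero.mp h0 with h1 | h1
  · exact (sub_eq_zero.mp h1).symm
  · have : (1 : Module.End F W) = 0 := by
      rw [← map_one π, ← mul_inv_cancel g, map_mul, h1, zero_mul]
    exact absurd this one_ne_zero

/-- The linear form extending `t`, in a spanning family of matrices with quadratic relations. -/
theorem exists_linearForm_of_quadRel {n : Type*} [Fintype n] [DecidableEq n]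
    (r : G →* Matrix n n F) (hspan : Submodule.span F (Set.range r) = ⊤)
    (hn : 2 ≤ Fintype.card n) (t d : G → F) (hd : ∀ g h, d (g * h) = d g * d h)
    (hd0 : ∀ g, d g ≠ 0) (hrel : ∀ g, r g * r g - t g • r g + d g • 1 = 0) :
    ∃ T : Matrix n n F →ₗ[F] F, (∀ g, T (r g) = t g) ∧
      ∀ x y : Matrix n n F,
        x * y + y * x = (T (x * y) - T x * T y) • 1 + T y • x + T x • y := by
  classical
  -- `t(g) - g = d(g) g⁻¹`
  have hstar : ∀ g, t g • (1 : Matrix n n F) - r g = d g • r g⁻¹ := by
    intro g
    have h1 : r g * (t g • 1 - r g) = d g • 1 := by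
      rw [mul_sub, Matrix.mul_smul, Matrix.mul_one]
      linear_combination (norm := abel) -(hrel g)
    have h2 := congrArg (fun X => r g⁻¹ * X) h1
    simpa [← Matrix.mul_assoc, ← map_mul] using h2
  let L1 : (G →₀ F) →ₗ[F] Matrix n n F := Finsupp.linearCombination F (fun g => r g)
  let L2 : (G →₀ F) →ₗ[F] F := Finsupp.linearCombination F t
  let L3 : (G →₀ F) →ₗ[F] Matrix n n F := Finsupp.linearCombination F (fun g => d g • r g⁻¹)
  have hL1 : Function.Surjective L1 := by
    rw [← LinearMap.range_eq_top, Finsupp.range_linearCombination]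
    exact hspan
  have h23 : ∀ c, L3 c = L2 c • 1 - L1 c := by
    intro c
    induction c using Finsupp.induction_linear with
    | zero => simp
    | add a b ha hb => simp only [map_add, ha, hb, add_smul]; abel
    | single g a => simp [L1, L2, L3, ← hstar, smul_sub, smul_smul]
  have hker : LinearMap.ker L1 ≤ LinearMap.ker L2 := by
    intro c hc
    rw [LinearMap.mem_ker] at hc ⊢
    by_contra hne
    -- every element is then a scalar
    have hscal : ∀ h : G, ∃ a : F, r h = a • 1 := by
      intro h
      let c' : G →₀ F := c.mapDomain (h⁻¹ * ·)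
      have hall : ∀ c₀ : G →₀ F, L1 (c₀.mapDomain (h⁻¹ * ·)) = r h⁻¹ * L1 c₀ ∧
          L3 (c₀.mapDomain (h⁻¹ * ·)) = d h⁻¹ • (L3 c₀ * r h) := by
        intro c₀
        induction c₀ using Finsupp.induction_linear with
        | zero => simp
        | add a b ha hb =>
          simp only [Finsupp.mapDomain_add, map_add, ha.1, ha.2, hb.1, hb.2, Matrix.mul_add,
            Matrix.add_mul, smul_add, and_self]
        | single g a =>
          simp [L1, L3, Finsupp.mapDomain_single, map_mul, _root_.mul_inv_rev, hd, smul_smul]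
          ring_nf
      have hc' : L1 c' = r h⁻¹ * L1 c := (hall c).1
      have hc3 : L3 c' = d h⁻¹ • (L3 c * r h) := (hall c).2
      have e1 : L3 c = L2 c • 1 := by rw [h23, hc, sub_zero]
      have e2 : L3 c' = L2 c' • 1 := by rw [h23, hc', hc, Matrix.mul_zero, sub_zero]
      rw [hc3, e1, Matrix.smul_mul, Matrix.one_mul, smul_smul] at e2
      have hne' : d h⁻¹ * L2 c ≠ 0 := mul_ne_zero (hd0 _) hne
      exact ⟨(d h⁻¹ * L2 c)⁻¹ * L2 c', by
        rw [mul_smul, ← e2, inv_smul_smul₀ hne']⟩
    have htop : (⊤ : Submodule F (Matrix n n F)) ≤ Submodule.span F {1} := by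
      rw [← hspan, Submodule.span_le]
      rintro _ ⟨g, rfl⟩
      obtain ⟨a, ha⟩ := hscal g
      exact Submodule.mem_span_singleton.mpr ⟨a, ha.symm⟩
    obtain ⟨i, j, hij⟩ := Fintype.exists_pair_of_one_lt_card (α := n) (by omega)
    obtain ⟨a, ha⟩ := Submodule.mem_span_singleton.mp
      (htop (Submodule.mem_top : Matrix.single i j (1 : F) ∈ _))
    simpa [hij] using congrFun (congrFun ha i) j
  let e := LinearMap.quotKerEquivOfSurjective L1 hL1
  let T : Matrix n n F →ₗ[F] F := (LinearMap.ker L1).liftQ L2 hker ∘ₗ e.symm.toLinearMap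
  have hT : ∀ c, T (L1 c) = L2 c := by
    intro c
    show (LinearMap.ker L1).liftQ L2 hker (e.symm (L1 c)) = _
    rw [show e.symm (L1 c) = Submodule.Quotient.mk c from e.symm_apply_eq.mpr rfl]
    rfl
  have hTr : ∀ g, T (r g) = t g := fun g => by
    simpa [L1, L2] using hT (Finsupp.single g 1)
  refine ⟨T, hTr, ?_⟩
  let S : Matrix n n F →ₗ[F] Matrix n n F := T.smulRight 1 - LinearMap.id
  have hS : ∀ g, S (r g) = d g • r g⁻¹ := fun g => by simp [S, hTr, hstar]
  have hanti : ∀ x y, S (x * y) = S y * S x := by
    intro x y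
    have hx : x ∈ Submodule.span F (Set.range r) := by rw [hspan]; trivial
    have hy : y ∈ Submodule.span F (Set.range r) := by rw [hspan]; trivial
    induction hx using Submodule.span_induction with
    | mem x hx =>
      obtain ⟨g, rfl⟩ := hx
      induction hy using Submodule.span_induction with
      | mem y hy =>
        obtain ⟨h, rfl⟩ := hy
        rw [← map_mul, hS, hS, hS, _root_.mul_inv_rev, map_mul, hd, Matrix.smul_mul,
          Matrix.mul_smul, smul_smul, mul_comm]
      | zero => simp
      | add a b _ _ ha hb => simp [Matrix.mul_add, map_add, ha, hb, Matrix.add_mul]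
      | smul c a _ ha => simp [map_smul, ha]
    | zero => simp
    | add a b _ _ ha hb => simp [Matrix.add_mul, map_add, ha, hb, Matrix.mul_add]
    | smul c a _ ha => simp [map_smul, ha]
  intro x y
  have := hanti x y
  simp only [S, LinearMap.sub_apply, LinearMap.smulRight_apply, LinearMap.id_apply,
    Matrix.sub_mul, Matrix.mul_sub, Matrix.smul_mul, Matrix.mul_smul, Matrix.one_mul,
    Matrix.mul_one, smul_smul] at this
  rw [sub_smul]
  linear_combination (norm := module) -this

variable [IsAlgClosed F]

/-- In the situation of `exists_linearForm_of_quadRel` the size is at most two, and for size two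
the form is the trace and `d` is the determinant. -/
theorem trace_det_of_quadRel {m : ℕ} (r : G →* Matrix (Fin m) (Fin m) F)
    (hspan : Submodule.span F (Set.range r) = ⊤) (hm : 2 ≤ m) (t d : G → F)
    (hd : ∀ g h, d (g * h) = d g * d h) (hd0 : ∀ g, d g ≠ 0)
    (hrel : ∀ g, r g * r g - t g • r g + d g • 1 = 0) :
    m = 2 ∧ ∀ g, (r g).trace = t g := by
  obtain ⟨T, hT, hid⟩ := exists_linearForm_of_quadRel r hspan (by simpa using hm) t d hd hd0 hrel
  obtain rfl | hm3 := hm.eq_or_lt
  · refine ⟨rfl, fun g => ?_⟩
    have h01 := hid (Matrix.single 0 1 1) (Matrix.single 1 0 1)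
    have h001 := hid (Matrix.single 0 0 1) (Matrix.single 0 1 1)
    have h101 := hid (Matrix.single 1 1 1) (Matrix.single 0 1 1)
    have a01 := congrFun (congrFun h01 0) 1
    have a10 := congrFun (congrFun h01 1) 0
    simp [Matrix.add_apply, Matrix.smul_apply] at a01 a10
    have b := congrFun (congrFun h001 0) 1
    have c := congrFun (congrFun h101 0) 1
    simp [Matrix.add_apply, Matrix.smul_apply] at b c
    rw [← hT g, Matrix.trace_fin_two]
    conv_rhs => rw [Matrix.matrix_eq_sum_single (r g)]
    simp only [Fin.sum_univ_two, map_add]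
    rw [← mul_one ((r g) 0 0), ← mul_one ((r g) 1 1), ← mul_one ((r g) 0 1),
      ← mul_one ((r g) 1 0)]
    simp only [← smul_eq_mul, ← Matrix.smul_single, map_smul]
    rw [← a01, ← a10, ← b, ← c]
    simp
  · exfalso
    let i0 : Fin m := ⟨0, by omega⟩
    let i1 : Fin m := ⟨1, by omega⟩
    let i2 : Fin m := ⟨2, hm3⟩
    have h := congrFun (congrFun (hid (Matrix.single i0 i1 1) (Matrix.single i1 i2 1)) i0) i2
    simp [i0, i1, i2, Matrix.add_apply, Matrix.smul_apply, Fin.ext_iff] at h

/-- From quadratic relations to a semisimple plane. -/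
theorem exists_plane_rep {W : Type*} [AddCommGroup W] [Module F W] [FiniteDimensional F W]
    [Nontrivial W] (π : G →* Module.End F W) (d : G →* F)
    (hq : ∀ g, ∃ t : F, π g * π g - t • π g + d g • 1 = 0) :
    ∃ ρ : G →* Matrix (Fin 2) (Fin 2) F, IsIrredOrDiagonal ρ ∧ (∀ g, (ρ g).det = d g) ∧
      (∀ g t, π g * π g - t • π g + d g • 1 = 0 → (ρ g).trace = t) ∧
      ∀ g, π g = 1 → d g = 1 → ρ g = 1 := by
  classical
  choose t ht using hq
  have htu : ∀ g s, π g * π g - s • π g + d g • 1 = 0 → t g = s := fun g s hs =>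
    quadRel_unique π g (ht g) hs
  -- a minimal invariant subspace
  let Inv : Submodule F W → Prop := fun U => U ≠ ⊥ ∧ ∀ g, ∀ x ∈ U, π g x ∈ U
  have hex : ∃ k U, Inv U ∧ Module.finrank F U = k :=
    ⟨_, ⊤, ⟨top_ne_bot, fun _ _ _ => trivial⟩, rfl⟩
  obtain ⟨U, hU, hUk⟩ := Nat.find_spec hex
  set m := Module.finrank F U with hm
  have hmin : ∀ U', U' ≤ U → (∀ g, ∀ x ∈ U', π g x ∈ U') → U' = ⊥ ∨ U' = U := by
    intro U' hle hinv
    by_contra! h
    have h1 : Module.finrank F U' < m := Submodule.finrank_lt_finrank_of_lt (lt_of_le_of_ne hle h.2)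
    exact Nat.find_min hex (hUk ▸ h1) ⟨U', ⟨h.1, hinv⟩, rfl⟩
  have : Nontrivial U := Submodule.nontrivial_iff_ne_bot.mpr hU.1
  let σ : G →* Module.End F U :=
    { toFun := fun g => (π g).restrict (hU.2 g)
      map_one' := by ext x; simp
      map_mul' := fun a b => by ext x; simp }
  have hirr : ∀ W' : Submodule F U, (∀ g, ∀ x ∈ W', σ g x ∈ W') → W' = ⊥ ∨ W' = ⊤ := by
    intro W' hW'
    rcases hmin (W'.map U.subtype) (Submodule.map_subtype_le U W') (by
      rintro g _ ⟨x, hx, rfl⟩
      exact ⟨σ g x, hW' g x hx, rfl⟩) with h | h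
    · exact Or.inl (Submodule.map_injective_of_injective U.injective_subtype (by simpa using h))
    · exact Or.inr (Submodule.map_injective_of_injective U.injective_subtype (by simpa using h))
  let b := Module.finBasis F U
  let r : G →* Matrix (Fin m) (Fin m) F :=
    (LinearMap.toMatrixAlgEquiv b).toMulEquiv.toMonoidHom.comp σ
  have hrel : ∀ g, r g * r g - t g • r g + d g • 1 = 0 := by
    intro g
    have hσ : σ g * σ g - t g • σ g + d g • (1 : Module.End F U) = 0 := by
      ext x
      simpa [σ] using LinearMap.congr_fun (ht g) x.1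
    have := congrArg (LinearMap.toMatrixAlgEquiv b) hσ
    simpa [r] using this
  have hpos : 0 < m := Module.finrank_pos
  have hd' : ∀ g, d g ≠ 0 := fun g hg => by
    have := map_mul d g g⁻¹
    rw [mul_inv_cancel, map_one, hg, zero_mul] at this
    exact one_ne_zero this
  obtain h1 | h2 : m = 1 ∨ 2 ≤ m := by omega
  · -- a character and its twist
    let ψ : G →* F :=
      { toFun := fun g => r g ⟨0, hpos⟩ ⟨0, hpos⟩
        map_one' := by simp
        map_mul' := fun a c => by
          rw [map_mul, Matrix.mul_apply]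
          refine Fintype.sum_eq_single _ fun x hx => absurd (Fin.ext ?_) hx
          have := x.isLt
          simp only
          omega }
    have hψ : ∀ g, ψ g ≠ 0 := fun g hg => by
      have := map_mul ψ g g⁻¹
      rw [mul_inv_cancel, map_one, hg, zero_mul] at this
      exact one_ne_zero this
    let ρ : G →* Matrix (Fin 2) (Fin 2) F :=
      { toFun := fun g => Matrix.diagonal ![ψ g, d g / ψ g]
        map_one' := by
          ext i j; fin_cases i <;> fin_cases j <;> simp
        map_mul' := fun a c => by
          rw [Matrix.diagonal_mul_diagonal]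
          congr 1
          funext i; fin_cases i <;> simp [div_mul_div_comm] }
    refine ⟨ρ, Or.inr fun g => ⟨_, _, rfl⟩, fun g => ?_, fun g s hs => ?_, fun g hg hdg => ?_⟩
    · simp [ρ, mul_div_cancel₀ _ (hψ g)]
    · rw [← htu g s hs]
      have h3 : ψ g * ψ g - t g * ψ g + d g = 0 := by
        have h4 := congrFun (congrFun (hrel g) ⟨0, hpos⟩) ⟨0, hpos⟩
        have h5 : (r g * r g) ⟨0, hpos⟩ ⟨0, hpos⟩ = r g ⟨0, hpos⟩ ⟨0, hpos⟩ * r g ⟨0, hpos⟩ ⟨0, hpos⟩ := by
          rw [Matrix.mul_apply]
          refine Fintype.sum_eq_single _ fun x hx => absurd (Fin.ext ?_) hx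
          have := x.isLt
          simp only
          omega
        simpa [ψ, Matrix.add_apply, Matrix.sub_apply, Matrix.smul_apply, h5] using h4
      simp [ρ, Matrix.trace_fin_two]
      field_simp [hψ g]
      linear_combination h3
    · have : σ g = 1 := by ext x; simp [σ, hg]
      have hψ1 : ψ g = 1 := by simp [ψ, r, this]
      ext i j; fin_cases i <;> fin_cases j <;> simp [ρ, hψ1, hdg]
  · have hspanσ : RepTheory.Spans σ := RepTheory.spans_of_forall_invariant_isAlgClosed hirr
    have hspan : Submodule.span F (Set.range r) = ⊤ := (RepTheory.spans_iff_matHom b σ).mp hspanσ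
    obtain ⟨hm2, htr⟩ := trace_det_of_quadRel r hspan h2 t d (map_mul d) hd' hrel
    let e := finCongr hm2
    let ρ : G →* Matrix (Fin 2) (Fin 2) F :=
      (Matrix.reindexAlgEquiv F F e).toMulEquiv.toMonoidHom.comp r
    refine ⟨ρ, Or.inl fun v hv => ?_, fun g => ?_, fun g s hs => ?_, fun g hg hdg => ?_⟩
    · by_contra! hc
      have hv' : v ∘ e ≠ 0 := fun h => hv (funext fun i => by simpa using congrFun h (e.symm i))
      have hinv : ∀ M : Matrix (Fin m) (Fin m) F, ∃ c : F, M *ᵥ (v ∘ e) = c • (v ∘ e) := by
        intro M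
        have hM : M ∈ Submodule.span F (Set.range r) := by rw [hspan]; trivial
        induction hM using Submodule.span_induction with
        | mem x hx =>
          obtain ⟨g, rfl⟩ := hx
          obtain ⟨c, hc⟩ := hc g
          refine ⟨c, ?_⟩
          funext i
          have := congrFun hc (e i)
          simpa [ρ, Matrix.mulVec, dotProduct, ← e.sum_comp] using this
        | zero => exact ⟨0, by simp⟩
        | add x y _ _ hx hy =>
          obtain ⟨c, hc⟩ := hx
          obtain ⟨c', hc'⟩ := hy
          exact ⟨c + c', by rw [Matrix.add_mulVec, hc, hc', add_smul]⟩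
        | smul a x _ hx =>
          obtain ⟨c, hc⟩ := hx
          exact ⟨a * c, by rw [Matrix.smul_mulVec, hc, smul_smul]⟩
      obtain ⟨i, hi⟩ := Function.ne_iff.mp hv'
      obtain ⟨j, hji⟩ : ∃ j : Fin m, j ≠ i := Fintype.exists_ne_of_one_lt_card (by simp; omega) i
      obtain ⟨c, hc⟩ := hinv (Matrix.single j i 1)
      have h3 := congrFun hc j
      have h4 := congrFun hc i
      rw [Matrix.single_mulVec] at h3 h4
      simp only [Function.update_self, Function.update_of_ne (Ne.symm hji), Pi.zero_apply,
        Pi.smul_apply, smul_eq_mul, one_mul] at h3 h4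
      rcases mul_eq_zero.mp h4.symm with h4 | h4
      · rw [h4, zero_mul] at h3; exact hi h3
      · exact hi h4
    · have hρ : ρ g * ρ g - t g • ρ g + d g • 1 = 0 := by
        have := congrArg (Matrix.reindexAlgEquiv F F e) (hrel g)
        rw [map_add, map_sub, map_mul, map_smul, map_smul, map_one, map_zero] at this
        exact this
      have htr2 : (ρ g).trace = t g := by
        rw [← htr g]
        simp [ρ, Matrix.trace, Matrix.diag, ← e.sum_comp]
      rw [← htr2] at hρ
      have h00 := congrFun (congrFun hρ 0) 0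
      simp [Matrix.mul_apply, Fin.sum_univ_two, Matrix.trace_fin_two] at h00
      rw [Matrix.det_fin_two]
      linear_combination -h00
    · rw [← htu g s hs, ← htr g]
      simp [ρ, Matrix.trace, Matrix.diag, ← e.sum_comp]
    · have : σ g = 1 := by ext x; simp [σ, hg]
      simp [ρ, r, this]

end FLTA.DeligneSerre
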